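import Mathlib

/-! # S27 / Gen / DerivExists  (TASK S27/G7)

In characteristic zero a transcendental element is not killed by all derivations.

More generally: for a transcendence basis `v` of `L/K` (char 0) there are `K`-derivations `δ i` of `L`
with `δ i (v j) = if j = i then 1 else 0` (`exists_derivation_of_isTranscendenceBasis`). -/

set_option autoImplicit false

namespace Fermat.Agent.S27

open scoped IntermediateField.algebraAdjoinAdjoin KaehlerDifferential TensorProduct

namespace DerivExists

variable {K L ι : Type*} [Field K] [Field L] [Algebra K L]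

/-- `L` is formally étale over `K[v]` for a transcendence basis `v` (char 0). -/
theorem formallyEtale_adjoin [CharZero K] {v : ι → L} (hv : IsTranscendenceBasis K v) :
    Algebra.FormallyEtale (Algebra.adjoin K (Set.range v)) L := by
  have h1 : Algebra.FormallyEtale (Algebra.adjoin K (Set.range v))
      (IntermediateField.adjoin K (Set.range v)) :=
    Algebra.FormallyEtale.of_isLocalization (nonZeroDivisors _)
  have h3 : Algebra.IsAlgebraic (IntermediateField.adjoin K (Set.range v)) L :=
    hv.isAlgebraic_field
  have h2 : Algebra.FormallyEtale (IntermediateField.adjoin K (Set.range v)) L :=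
    Algebra.FormallyEtale.of_isSeparable _ L
  exact Algebra.FormallyEtale.comp _ (IntermediateField.adjoin K (Set.range v)) L

/-- The derivation `∂/∂v_i : K[v] → L`. -/
noncomputable def pd {v : ι → L} (hb : AlgebraicIndependent K v) (i : ι) :
    Derivation K (Algebra.adjoin K (Set.range v)) L :=
  Derivation.mk'
    ((MvPolynomial.aeval v).toLinearMap ∘ₗ (MvPolynomial.pderiv (R := K) i).toLinearMap ∘ₗ
      hb.aevalEquiv.symm.toLinearMap)
    (by
      intro a b
      obtain ⟨p, rfl⟩ := hb.aevalEquiv.surjective a
      obtain ⟨q, rfl⟩ := hb.aevalEquiv.surjective b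
      have hc : ∀ r : MvPolynomial ι K,
          ((hb.aevalEquiv r : Algebra.adjoin K (Set.range v)) : L) = MvPolynomial.aeval v r :=
        fun r => hb.algebraMap_aevalEquiv r
      simp only [LinearMap.comp_apply, AlgEquiv.toLinearMap_apply, AlgHom.toLinearMap_apply,
        ← map_mul, AlgEquiv.symm_apply_apply, Derivation.coeFn_coe, Derivation.leibniz, map_add,
        Algebra.smul_def]
      rw [map_mul, map_mul]
      show _ = ((hb.aevalEquiv p : Algebra.adjoin K (Set.range v)) : L) * _ +
        ((hb.aevalEquiv q : Algebra.adjoin K (Set.range v)) : L) * _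
      rw [hc, hc]
      rfl)

theorem pd_apply {v : ι → L} (hb : AlgebraicIndependent K v) [DecidableEq ι] (i j : ι) :
    pd hb i ⟨v j, Algebra.subset_adjoin ⟨j, rfl⟩⟩ = if j = i then 1 else 0 := by
  have h : hb.aevalEquiv.symm ⟨v j, Algebra.subset_adjoin ⟨j, rfl⟩⟩ = MvPolynomial.X j := by
    rw [AlgEquiv.symm_apply_eq]
    apply Subtype.ext
    have := hb.algebraMap_aevalEquiv (MvPolynomial.X j)
    rw [MvPolynomial.aeval_X] at this
    exact this.symm
  show MvPolynomial.aeval v (MvPolynomial.pderiv i (hb.aevalEquiv.symm _)) = _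
  rw [h, MvPolynomial.pderiv_X]
  by_cases hji : j = i
  · subst hji; simp
  · simp [hji]

end DerivExists

open DerivExists in
/-- Dual derivations of a transcendence basis in characteristic zero. -/
theorem exists_derivation_of_isTranscendenceBasis {K L ι : Type*} [Field K] [Field L] [Algebra K L]
    [CharZero K] [DecidableEq ι] {v : ι → L} (hv : IsTranscendenceBasis K v) (i : ι) :
    ∃ δ : Derivation K L L, ∀ j, δ (v j) = if j = i then 1 else 0 := by
  have := formallyEtale_adjoin hv
  let A := Algebra.adjoin K (Set.range v)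
  let e := KaehlerDifferential.tensorKaehlerEquivOfFormallyEtale K A L
  let f : Ω[L⁄K] →ₗ[L] L := ((pd hv.1 i).liftKaehlerDifferential.liftBaseChange L) ∘ₗ e.symm.toLinearMap
  refine ⟨f.compDer (KaehlerDifferential.D K L), fun j => ?_⟩
  have h1 : e.symm (KaehlerDifferential.D K L
      (algebraMap A L ⟨v j, Algebra.subset_adjoin ⟨j, rfl⟩⟩)) =
      1 ⊗ₜ KaehlerDifferential.D K A ⟨v j, Algebra.subset_adjoin ⟨j, rfl⟩⟩ :=
    KaehlerDifferential.tensorKaehlerEquivOfFormallyEtale_symm_D_algebraMap K A L _
  have h2 : algebraMap A L ⟨v j, Algebra.subset_adjoin ⟨j, rfl⟩⟩ = v j := rfl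
  rw [h2] at h1
  show ((pd hv.1 i).liftKaehlerDifferential.liftBaseChange L)
    (e.symm (KaehlerDifferential.D K L (v j))) = _
  rw [h1, LinearMap.liftBaseChange_tmul, Derivation.liftKaehlerDifferential_comp_D, one_smul,
    pd_apply]

theorem exists_derivation_eq_one {K₀ K₁ : Type*} [Field K₀] [Field K₁] [Algebra K₀ K₁] [CharZero K₀]
    (a : K₁) (ha : Transcendental K₀ a) : ∃ δ : Derivation K₀ K₁ K₁, δ a = 1 := by
  classical
  have hs : AlgebraicIndepOn K₀ id ({a} : Set K₁) :=
    algebraicIndependent_unique_type_iff.mpr ha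
  obtain ⟨t, hat, ht⟩ := exists_isTranscendenceBasis_superset hs
  obtain ⟨δ, hδ⟩ := exists_derivation_of_isTranscendenceBasis ht ⟨a, hat rfl⟩
  exact ⟨δ, by simpa using hδ ⟨a, hat rfl⟩⟩

end Fermat.Agent.S27
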