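import Mathlib

/-! # S27 / Gen / LatticeCount  (TASK S27/G1)

A surjective homomorphism `φ : E → G` from a finite dimensional real normed space with discrete kernel
and a bounded "fundamental set" has `#G[n] = n ^ dim_ℝ E`.

Proof sketch: `Λ := ker φ` is a discrete subgroup (`hdisc`), it spans `E` over `ℝ` (otherwise compose
with a nonzero linear functional killing `span Λ`: it is bounded on `E = B + Λ`, contradiction), so it is an
`IsZLattice ℝ Λ`, free of rank `finrank ℝ E` (`ZLattice.rank`).  `G ≃ E ⧸ Λ`,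
`G[n] ≃ (n⁻¹ Λ)/Λ ≃ Λ/nΛ`, of cardinality `n ^ rank`. -/

set_option autoImplicit false

namespace Fermat.Agent.S27

namespace LatticeCount

/-- two surjective homomorphisms with the same kernel have targets of the same cardinality -/
theorem card_eq_of_ker_eq {A B C : Type*} [AddCommGroup A] [AddCommGroup B] [AddCommGroup C]
    (f : A →+ B) (g : A →+ C) (hf : Function.Surjective f) (hg : Function.Surjective g)
    (h : f.ker = g.ker) : Nat.card B = Nat.card C := by
  have e1 := QuotientAddGroup.quotientKerEquivOfSurjective f hf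
  have e2 := QuotientAddGroup.quotientKerEquivOfSurjective g hg
  rw [← Nat.card_congr e1.toEquiv, ← Nat.card_congr e2.toEquiv, h]

variable {E : Type*} [NormedAddCommGroup E] [NormedSpace ℝ E] [FiniteDimensional ℝ E]
  {G : Type*} [AddCommGroup G] (φ : E →+ G)

/-- the kernel as a `ℤ`-submodule -/
def lam : Submodule ℤ E := AddSubgroup.toIntSubmodule φ.ker

omit [NormedSpace ℝ E] [FiniteDimensional ℝ E] in
theorem mem_lam {v : E} : v ∈ lam φ ↔ φ v = 0 := Iff.rfl

omit [NormedSpace ℝ E] [FiniteDimensional ℝ E] in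
theorem discrete_lam (hdisc : ∃ ε > 0, ∀ v : E, ‖v‖ < ε → φ v = 0 → v = 0) :
    DiscreteTopology (lam φ) := by
  obtain ⟨ε, hε, h⟩ := hdisc
  refine discreteTopology_of_isOpen_singleton_zero ?_
  rw [Metric.isOpen_singleton_iff]
  refine ⟨ε, hε, fun y hy => ?_⟩
  have h1 : ‖(y : E)‖ < ε := by
    have : dist y 0 = ‖(y : E)‖ := by
      rw [Subtype.dist_eq]; simp
    rwa [this] at hy
  exact Subtype.ext (h y h1 y.2)

theorem span_lam (hbdd : ∃ C : ℝ, ∀ x : G, ∃ v : E, ‖v‖ ≤ C ∧ φ v = x) :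
    Submodule.span ℝ (lam φ : Set E) = ⊤ := by
  by_contra hne
  obtain ⟨f, hf0, hf⟩ := Submodule.exists_le_ker_of_lt_top _ (lt_top_iff_ne_top.mpr hne)
  obtain ⟨C, hC⟩ := hbdd
  apply hf0
  set F := LinearMap.toContinuousLinearMap f with hF
  have hbound : ∀ v : E, |f v| ≤ ‖F‖ * |C| := by
    intro v
    obtain ⟨v', hv', hφ⟩ := hC (φ v)
    have hmem : v - v' ∈ lam φ := by
      rw [mem_lam, map_sub, hφ, sub_self]
    have h0 : f (v - v') = 0 := hf (Submodule.subset_span hmem)
    have h1 : f v = f v' := by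
      rw [map_sub] at h0; linarith
    rw [h1]
    have h2 : ‖F v'‖ ≤ ‖F‖ * ‖v'‖ := F.le_opNorm v'
    have h3 : ‖F v'‖ = |f v'| := rfl
    rw [h3] at h2
    refine h2.trans (mul_le_mul_of_nonneg_left (hv'.trans (le_abs_self C)) (norm_nonneg _))
  ext v
  by_contra hv
  have hv' : f v ≠ 0 := hv
  have hpos : 0 < |f v| := abs_pos.mpr hv'
  set t : ℝ := (‖F‖ * |C| + 1) / |f v| with ht
  have h1 := hbound (t • v)
  rw [map_smul, smul_eq_mul, abs_mul] at h1
  have ht0 : 0 ≤ t := by positivity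
  rw [abs_of_nonneg ht0, ht, div_mul_cancel₀ _ hpos.ne'] at h1
  linarith

end LatticeCount

open LatticeCount

theorem card_torsion_of_exp {E : Type*} [NormedAddCommGroup E] [NormedSpace ℝ E]
    [FiniteDimensional ℝ E] {G : Type*} [AddCommGroup G] (φ : E →+ G)
    (hdisc : ∃ ε > 0, ∀ v : E, ‖v‖ < ε → φ v = 0 → v = 0)
    (hbdd : ∃ C : ℝ, ∀ x : G, ∃ v : E, ‖v‖ ≤ C ∧ φ v = x)
    (n : ℕ) (hn : 0 < n) :
    Nat.card {x : G // (n : ℤ) • x = 0} = n ^ (Module.finrank ℝ E) := by
  classical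
  have hn0 : (n : ℝ) ≠ 0 := by exact_mod_cast hn.ne'
  have : DiscreteTopology (lam φ) := discrete_lam φ hdisc
  have : IsZLattice ℝ (lam φ) := ⟨span_lam φ hbdd⟩
  have : Module.Free ℤ (lam φ) := ZLattice.module_free ℝ (lam φ)
  have : Module.Finite ℤ (lam φ) := ZLattice.module_finite ℝ (lam φ)
  set r := Module.finrank ℝ E with hr
  let b : Module.Basis (Fin r) ℤ (lam φ) := Module.finBasisOfFinrankEq ℤ (lam φ)
    (ZLattice.rank ℝ (lam φ))
  let B : Module.Basis (Fin r) ℝ E := b.ofZLatticeBasis ℝ (lam φ)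
  have hmem : ∀ v : E, φ v = 0 ↔ ∀ i, B.repr v i ∈ Set.range (algebraMap ℤ ℝ) := by
    intro v
    rw [← B.mem_span_iff_repr_mem ℤ v, b.ofZLatticeBasis_span ℝ (lam φ), mem_lam]
  have hrepr : ∀ (x : Fin r → ℝ) (i : Fin r), B.repr (B.equivFun.symm x) i = x i := by
    intro x i
    rw [← Module.Basis.equivFun_apply, LinearEquiv.apply_symm_apply]
  -- the scaling map
  let sc : (Fin r → ℤ) →+ (Fin r → ℝ) :=
    { toFun := fun a i => (a i : ℝ) / n
      map_zero' := by ext i; simp
      map_add' := fun a a' => by ext i; simp [add_div] }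
  let Ψ0 : (Fin r → ℤ) →+ G := φ.comp (B.equivFun.symm.toLinearMap.toAddMonoidHom.comp sc)
  have hΨ0 : ∀ a, Ψ0 a = φ (B.equivFun.symm (fun i => (a i : ℝ) / n)) := fun a => rfl
  have hsmul : ∀ a : Fin r → ℤ, ((n : ℤ) • B.equivFun.symm (fun i => (a i : ℝ) / n)) =
      B.equivFun.symm (fun i => (a i : ℝ)) := by
    intro a
    rw [← map_zsmul]
    congr 1
    ext i
    simp only [Pi.smul_apply, zsmul_eq_mul, Int.cast_natCast]
    field_simp
  have htors : ∀ a, Ψ0 a ∈ (zsmulAddGroupHom (α := G) (n : ℤ)).ker := by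
    intro a
    rw [AddMonoidHom.mem_ker]
    show (n : ℤ) • Ψ0 a = 0
    rw [hΨ0, ← map_zsmul, hmem]
    intro i
    exact ⟨a i, by rw [hsmul, hrepr]; rfl⟩
  let Ψ : (Fin r → ℤ) →+ (zsmulAddGroupHom (α := G) (n : ℤ)).ker :=
    { toFun := fun a => ⟨Ψ0 a, htors a⟩
      map_zero' := Subtype.ext (map_zero Ψ0)
      map_add' := fun a a' => Subtype.ext (map_add Ψ0 a a') }
  have hΨsurj : Function.Surjective Ψ := by
    rintro ⟨x, hx⟩
    have hx' : (n : ℤ) • x = 0 := hx
    obtain ⟨C, hC⟩ := hbdd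
    obtain ⟨v, -, rfl⟩ := hC x
    rw [← map_zsmul, hmem] at hx'
    choose a ha using hx'
    refine ⟨a, Subtype.ext ?_⟩
    show Ψ0 a = φ v
    rw [hΨ0]
    congr 1
    apply B.equivFun.injective
    rw [LinearEquiv.apply_symm_apply]
    ext i
    have h1 := ha i
    rw [map_zsmul] at h1
    have h2 : (a i : ℝ) = (n : ℝ) * B.repr v i := by
      have : algebraMap ℤ ℝ (a i) = (a i : ℝ) := rfl
      rw [← this, h1]
      simp
    rw [h2, Module.Basis.equivFun_apply]
    field_simp
  -- reduction mod `n`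
  let red : (Fin r → ℤ) →+ (Fin r → ZMod n) :=
    { toFun := fun a i => (a i : ZMod n)
      map_zero' := by ext i; simp
      map_add' := fun a a' => by ext i; simp }
  have hredsurj : Function.Surjective red := by
    intro y
    refine ⟨fun i => (ZMod.intCast_surjective (y i)).choose, ?_⟩
    ext i
    exact (ZMod.intCast_surjective (y i)).choose_spec
  have hker : Ψ.ker = red.ker := by
    ext a
    rw [AddMonoidHom.mem_ker, AddMonoidHom.mem_ker]
    have h1 : Ψ a = 0 ↔ Ψ0 a = 0 := by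
      constructor
      · intro h; exact congrArg Subtype.val h
      · intro h; exact Subtype.ext h
    have h2 : red a = 0 ↔ ∀ i, ((n : ℕ) : ℤ) ∣ a i := by
      constructor
      · intro h i
        have := congrFun h i
        exact (ZMod.intCast_zmod_eq_zero_iff_dvd (a i) n).mp this
      · intro h
        ext i
        exact (ZMod.intCast_zmod_eq_zero_iff_dvd (a i) n).mpr (h i)
    rw [h1, h2, hΨ0, hmem]
    refine forall_congr' (fun i => ?_)
    rw [hrepr]
    constructor
    · rintro ⟨c, hc⟩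
      refine ⟨c, ?_⟩
      have hc' : (c : ℝ) = (a i : ℝ) / n := hc
      have : (a i : ℝ) = (n : ℝ) * c := by rw [hc']; field_simp
      exact_mod_cast this
    · rintro ⟨c, hc⟩
      refine ⟨c, ?_⟩
      show (c : ℝ) = (a i : ℝ) / n
      rw [hc]
      push_cast
      field_simp
  have hcard := card_eq_of_ker_eq Ψ red hΨsurj hredsurj hker
  have e : Nat.card {x : G // (n : ℤ) • x = 0} =
      Nat.card (zsmulAddGroupHom (α := G) (n : ℤ)).ker := rfl
  rw [e, hcard, Nat.card_fun, Nat.card_zmod, Nat.card_eq_fintype_card, Fintype.card_fin]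

end Fermat.Agent.S27
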