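import Mathlib

/-! # S27 / Gen / EmbedComplex  (TASK S27/G6)

A countable field of characteristic zero embeds into `ℂ`.

Proof A: `L := AlgebraicClosure (FractionRing (MvPolynomial ℝ K))` is algebraically closed of
characteristic `0` and cardinality `𝔠`, so `L ≃+* ℂ` by `IsAlgClosed.ringEquivOfCardinalEqOfCharZero`.
Proof B: transcendence basis of `K/ℚ` (countable) ↪ transcendence basis of `ℂ/ℚ` (uncountable),
then `IsAlgClosed.lift`. -/

set_option autoImplicit false

namespace Fermat.Agent.S27

universe u in
open Cardinal in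
theorem EmbedComplex.aux (K : Type u) [Field K] [CharZero K] [Countable K] :
    Nonempty (K →+* ℂ) := by
  let P := MvPolynomial ℝ K
  let Fr := FractionRing P
  let L := AlgebraicClosure Fr
  let φ : K →+* L := (algebraMap Fr L).comp ((algebraMap P Fr).comp MvPolynomial.C)
  have : CharZero L := charZero_of_injective_ringHom φ.injective
  have hK : #K ≤ ℵ₀ := Cardinal.mk_le_aleph0
  have hP : #P = (𝔠 : Cardinal.{u}) := by
    rw [MvPolynomial.cardinalMk_eq_max_lift, Cardinal.mk_real, lift_uzero, lift_continuum]
    rw [max_eq_right (hK.trans aleph0_le_continuum), max_eq_left aleph0_le_continuum]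
  have hFr : #Fr = (𝔠 : Cardinal.{u}) := (Cardinal.mk_fractionRing P).trans hP
  have hL : #L = (𝔠 : Cardinal.{u}) := by
    apply le_antisymm
    · have h := Algebra.IsAlgebraic.cardinalMk_le_max Fr L
      rw [hFr] at h
      exact h.trans (max_le le_rfl aleph0_le_continuum)
    · rw [← hFr]
      exact Cardinal.mk_le_of_injective (algebraMap Fr L).injective
  have hLC : Nonempty (L ≃ ℂ) := by
    rw [← Cardinal.lift_mk_eq', hL, Cardinal.mk_complex, lift_continuum, lift_continuum]
  have hunc : ℵ₀ < #L := by
    rw [hL]; exact aleph0_lt_continuum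
  obtain ⟨e⟩ := IsAlgClosed.ringEquiv_of_equiv_of_charZero hunc hLC
  exact ⟨(e : L →+* ℂ).comp φ⟩

theorem nonempty_ringHom_complex_of_countable (K : Type*) [Field K] [CharZero K] [Countable K] :
    Nonempty (K →+* ℂ) :=
  EmbedComplex.aux K

end Fermat.Agent.S27
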