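import Fermat.Agent.S27.Gen.DerivExists

/-! # S27 / Gen / TrdegKaehler  (TASK S27/G8)

For a field extension in characteristic zero, `dim_F Ω[F/K] = 1` forces transcendence degree one.

Proof: take a transcendence basis `v`.  The dual derivations of `DerivExists` show that the `D (v i)` are
linearly independent, so `#ι ≤ 1`; if `ι` is empty, `F/K` is algebraic separable, hence `Ω = 0`. -/

set_option autoImplicit false

namespace Fermat.Agent.S27

open scoped KaehlerDifferential

/-- The differentials of a transcendence basis are linearly independent (char 0). -/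
theorem linearIndependent_D_of_isTranscendenceBasis {K F ι : Type*} [Field K] [Field F] [Algebra K F]
    [CharZero K] {v : ι → F} (hv : IsTranscendenceBasis K v) :
    LinearIndependent F (fun i => KaehlerDifferential.D K F (v i)) := by
  classical
  rw [linearIndependent_iff']
  intro s g hg i hi
  obtain ⟨δ, hδ⟩ := exists_derivation_of_isTranscendenceBasis hv i
  have h := congrArg δ.liftKaehlerDifferential hg
  rw [map_sum, map_zero] at h
  simp only [map_smul, Derivation.liftKaehlerDifferential_comp_D, hδ, smul_eq_mul, mul_ite, mul_one,
    mul_zero, Finset.sum_ite_eq', hi, if_true] at h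
  exact h

theorem trdeg_eq_one_of_finrank_kaehler (K F : Type*) [Field K] [Field F] [Algebra K F] [CharZero K]
    [Algebra.EssFiniteType K F] (h : Module.finrank F Ω[F⁄K] = 1) : Algebra.trdeg K F = 1 := by
  obtain ⟨s, hs⟩ := exists_isTranscendenceBasis K F
  rw [← hs.cardinalMk_eq_trdeg]
  have hli := linearIndependent_D_of_isTranscendenceBasis hs
  have hfin : Module.Finite F Ω[F⁄K] := Module.finite_of_finrank_pos (by rw [h]; exact one_pos)
  have hrank : Module.rank F Ω[F⁄K] = 1 := by
    rw [← Module.finrank_eq_rank, h, Nat.cast_one]
  have hle : Cardinal.mk s ≤ 1 := by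
    have := hli.cardinal_le_rank
    rwa [hrank] at this
  have hne : Nonempty s := by
    by_contra hemp
    rw [not_nonempty_iff] at hemp
    have halg : Algebra.IsAlgebraic K F := hs.isEmpty_iff_isAlgebraic.mp hemp
    have : Algebra.FormallyEtale K F := Algebra.FormallyEtale.of_isSeparable K F
    have hsub : Subsingleton Ω[F⁄K] := inferInstance
    rw [Module.finrank_zero_of_subsingleton] at h
    exact zero_ne_one h
  exact le_antisymm hle (Cardinal.one_le_iff_ne_zero.mpr (Cardinal.mk_ne_zero s))

end Fermat.Agent.S27
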