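import Mathlib

/-! # S27 / Gen / PartialFractions  (TASK S27/G10)

Over an algebraically closed field every rational function in `x` is a `K`-linear combination of
`x ^ m` and `(x - a)⁻¹ ^ (k+1)`.

Proof: the span `W` contains `1`, is stable under multiplication by `x` and by `(x - a)⁻¹`
(`(x-a)⁻¹ (x-b)⁻¹ = (a-b)⁻¹ ((x-a)⁻¹ - (x-b)⁻¹)` for `a ≠ b`, induction on the exponent;
`x^m (x-a)⁻¹ = polynomial + a^m (x-a)⁻¹`).  An element of `K⟮x⟯` is `p(x)/q(x)`
(`IntermediateField.mem_adjoin_simple_iff`) and `q` splits. -/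

set_option autoImplicit false

namespace Fermat.Agent.S27

open IntermediateField

namespace PartialFractions

variable {K F : Type*} [Field K] [Field F] [Algebra K F]

/-- The span of the partial fraction generators. -/
def W (K : Type*) {F : Type*} [Field K] [Field F] [Algebra K F] (x : F) : Submodule K F :=
  Submodule.span K ({f : F | ∃ m : ℕ, f = x ^ m} ∪
      {f : F | ∃ (a : K) (k : ℕ), f = ((x - algebraMap K F a) ^ (k + 1))⁻¹})

theorem pow_mem (x : F) (m : ℕ) : x ^ m ∈ W K x :=
  Submodule.subset_span (Or.inl ⟨m, rfl⟩)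

theorem inv_pow_mem (x : F) (a : K) (k : ℕ) : ((x - algebraMap K F a) ^ (k + 1))⁻¹ ∈ W K x :=
  Submodule.subset_span (Or.inr ⟨a, k, rfl⟩)

theorem inv_mul_pow_mem (x : F) (a : K) (m : ℕ) : (x - algebraMap K F a)⁻¹ * x ^ m ∈ W K x := by
  induction m with
  | zero => simpa using inv_pow_mem x a 0
  | succ m ih =>
    by_cases h : x - algebraMap K F a = 0
    · rw [h, inv_zero, zero_mul]; exact zero_mem _
    · have : (x - algebraMap K F a)⁻¹ * x ^ (m + 1)
          = x ^ m + a • ((x - algebraMap K F a)⁻¹ * x ^ m) := by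
        rw [Algebra.smul_def]
        field_simp
        ring
      rw [this]
      exact add_mem (pow_mem x m) (Submodule.smul_mem _ _ ih)

theorem inv_mul_inv_pow_mem (x : F) (a b : K) (hab : a ≠ b) (k : ℕ) :
    (x - algebraMap K F a)⁻¹ * ((x - algebraMap K F b) ^ k)⁻¹ ∈ W K x := by
  induction k with
  | zero => simpa using inv_pow_mem x a 0
  | succ k ih =>
    by_cases ha : x - algebraMap K F a = 0
    · rw [ha, inv_zero, zero_mul]; exact zero_mem _
    by_cases hb : x - algebraMap K F b = 0
    · rw [hb, zero_pow (Nat.succ_ne_zero k), inv_zero, mul_zero]; exact zero_mem _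
    have hab' : algebraMap K F a - algebraMap K F b ≠ 0 :=
      sub_ne_zero.mpr fun h => hab ((algebraMap K F).injective h)
    have : (x - algebraMap K F a)⁻¹ * ((x - algebraMap K F b) ^ (k + 1))⁻¹
        = (a - b)⁻¹ • ((x - algebraMap K F a)⁻¹ * ((x - algebraMap K F b) ^ k)⁻¹
            - ((x - algebraMap K F b) ^ (k + 1))⁻¹) := by
      rw [Algebra.smul_def, map_inv₀, map_sub]
      field_simp
      ring
    rw [this]
    exact Submodule.smul_mem _ _ (sub_mem ih (inv_pow_mem x b k))

theorem inv_mul_mem (x : F) (a : K) {w : F} (hw : w ∈ W K x) :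
    (x - algebraMap K F a)⁻¹ * w ∈ W K x := by
  have : W K x ≤ (W K x).comap (LinearMap.mulLeft K (x - algebraMap K F a)⁻¹) := by
    rw [W, Submodule.span_le]
    rintro f (⟨m, rfl⟩ | ⟨b, k, rfl⟩)
    · exact inv_mul_pow_mem x a m
    · by_cases hab : a = b
      · subst hab
        have : (x - algebraMap K F a)⁻¹ * ((x - algebraMap K F a) ^ (k + 1))⁻¹
            = ((x - algebraMap K F a) ^ (k + 1 + 1))⁻¹ := by
          rw [pow_succ' _ (k + 1), mul_inv]
        show (x - algebraMap K F a)⁻¹ * ((x - algebraMap K F a) ^ (k + 1))⁻¹ ∈ W K x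
        rw [this]
        exact inv_pow_mem x a (k + 1)
      · exact inv_mul_inv_pow_mem x a b hab (k + 1)
  exact this hw

theorem inv_prod_mul_mem (x : F) (s : Multiset K) {w : F} (hw : w ∈ W K x) :
    (Polynomial.aeval x (s.map fun a => Polynomial.X - Polynomial.C a).prod)⁻¹ * w ∈ W K x := by
  induction s using Multiset.induction with
  | empty => simpa using hw
  | cons a s ih =>
    rw [Multiset.map_cons, Multiset.prod_cons, map_mul, mul_inv, mul_assoc]
    simpa using inv_mul_mem x a ih

theorem aeval_mem (x : F) (p : Polynomial K) : Polynomial.aeval x p ∈ W K x := by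
  rw [Polynomial.aeval_eq_sum_range]
  exact Submodule.sum_mem _ fun i _ => Submodule.smul_mem _ _ (pow_mem x i)

end PartialFractions

open PartialFractions in
theorem mem_span_partialFractions {K F : Type*} [Field K] [Field F] [Algebra K F] [IsAlgClosed K]
    (x : F) (r : F) (hr : r ∈ K⟮x⟯) :
    r ∈ Submodule.span K ({f : F | ∃ m : ℕ, f = x ^ m} ∪
      {f : F | ∃ (a : K) (k : ℕ), f = ((x - algebraMap K F a) ^ (k + 1))⁻¹}) := by
  obtain ⟨p, q, rfl⟩ := (mem_adjoin_simple_iff K r).mp hr
  show _ ∈ W K x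
  have hq := (IsAlgClosed.splits q).eq_prod_roots
  rw [hq, map_mul, Polynomial.aeval_C, div_eq_mul_inv, mul_inv, ← map_inv₀, mul_comm,
    mul_assoc, ← Algebra.smul_def]
  exact Submodule.smul_mem _ _ (inv_prod_mul_mem x _ (aeval_mem x p))

end Fermat.Agent.S27
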