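import Mathlib

/-! # S27 / Gen / TraceDeriv  (TASK S27/G9)

The trace of a finite field extension commutes with derivations.

Proof: choose a basis `b` of `F/E`; `M(f)` = matrix of multiplication by `f` (`Algebra.leftMulMatrix b`),
`Θ` the matrix with `D (b i) = ∑ j, Θ i j • b j`.  Applying `D` to `f * b i = ∑ j, M(f) .. • b j` gives
`M(D f) = d(M f) + [M f, Θ]` (up to transposition conventions), and `trace [A,B] = 0`
(`Matrix.trace_mul_comm`), `Algebra.trace_eq_matrix_trace`. -/

set_option autoImplicit false

namespace Fermat.Agent.S27

theorem trace_derivation {k E F : Type*} [Field k] [Field E] [Field F] [Algebra k E] [Algebra k F]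
    [Algebra E F] [IsScalarTower k E F] [FiniteDimensional E F]
    (d : Derivation k E E) (D : Derivation k F F)
    (hD : ∀ a : E, D (algebraMap E F a) = algebraMap E F (d a)) (f : F) :
    Algebra.trace E F (D f) = d (Algebra.trace E F f) := by
  classical
  let b := Module.Free.chooseBasis E F
  set M : F → Matrix _ _ E := fun x => Algebra.leftMulMatrix b x with hM
  set Θ : Matrix _ _ E := fun i j => b.repr (D (b j)) i with hΘ
  have hDsmul : ∀ (a : E) (x : F), D (a • x) = a • D x + d a • x := by
    intro a x
    rw [Algebra.smul_def, D.leibniz, hD, smul_eq_mul, smul_eq_mul, Algebra.smul_def,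
      Algebra.smul_def]
    ring
  have hmul : ∀ (x : F) j, x * b j = ∑ i, M x i j • b i := by
    intro x j
    conv_lhs => rw [← b.sum_repr (x * b j)]
    simp [hM, Algebra.leftMulMatrix_eq_repr_mul]
  have hDb : ∀ j, D (b j) = ∑ i, Θ i j • b i := fun j => (b.sum_repr _).symm
  have key : M (D f) + M f * Θ = (M f).map d + Θ * M f := by
    ext i j
    have h1 : D (f * b j) = ∑ i, (M (D f) + M f * Θ) i j • b i := by
      rw [D.leibniz, smul_eq_mul, smul_eq_mul, mul_comm (b j), hmul (D f) j, hDb j,
        Finset.mul_sum]
      simp only [Matrix.add_apply, add_smul, Finset.sum_add_distrib, Matrix.mul_apply,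
        Finset.sum_smul]
      rw [add_comm, Finset.sum_comm]
      congr 1
      refine Finset.sum_congr rfl fun l _ => ?_
      rw [mul_smul_comm, hmul f l, Finset.smul_sum]
      refine Finset.sum_congr rfl fun i _ => ?_
      rw [smul_smul, mul_comm]
    have h2 : D (f * b j) = ∑ i, ((M f).map d + Θ * M f) i j • b i := by
      rw [hmul f j, map_sum]
      simp only [hDsmul, Matrix.add_apply, add_smul, Finset.sum_add_distrib, Matrix.mul_apply,
        Finset.sum_smul, Matrix.map_apply]
      rw [add_comm, Finset.sum_comm]
      congr 1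
      refine Finset.sum_congr rfl fun l _ => ?_
      rw [hDb l, Finset.smul_sum]
      refine Finset.sum_congr rfl fun i _ => ?_
      rw [smul_smul, mul_comm]
    have h3 := congrArg (fun x => b.repr x i) (h1.symm.trans h2)
    simpa [map_sum, Finsupp.single_apply, Finset.sum_add_distrib] using h3
  have htr := congrArg Matrix.trace key
  rw [Matrix.trace_add, Matrix.trace_add, Matrix.trace_mul_comm, add_left_inj] at htr
  rw [Algebra.trace_eq_matrix_trace b, Algebra.trace_eq_matrix_trace b]
  rw [show Algebra.leftMulMatrix b (D f) = M (D f) from rfl, htr]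
  simp [Matrix.trace, hM, map_sum]

end Fermat.Agent.S27
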