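import Mathlib

/-! # S27 / Gen / LemmaM  (TASK S27/G5)  — the analytic heart of the "triple lemma"

Purely analytic statement (several complex variables, inverse function theorem).

Data.  Points are indexed by `Q = I ⊕ J`.  `M` indexes a basis of a space of functions `V = (M → ℂ)`;
`β q m : ℂ → ℂ` is the `m`-th basis function read in the chart around the `q`-th point.
For `b : M → ℂ` write `b(q,s) = ∑ m, b m * β q m s` and `b'(q,s) = ∑ m, b m * deriv (β q m) s`.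
`φ j q` is the `j`-th holomorphic differential in the `q`-th chart and `H j q` its primitive, `H j q 0 = 0`.

Hypotheses.
(a) `b₀` vanishes simply at all centres.
(b) a function of `V` vanishing at the centres of the first block `I` is a multiple of `b₀`; `#M = #I + 1`.
(c) residue relation.
(d) the differentials separate the last block `J`.

Conclusion: if `s` is small and `∑_q H j q (s q) = 0` for all `j`, some `b ≠ 0` vanishes at all `s q`.

PROOF.  Pick `m₀` with `b₀ m₀ ≠ 0`; WLOG `b₀ m₀ = 1`.  Consider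
`T : (M → ℂ) × (Q → ℂ) → (Q → ℂ) × (I → ℂ) × ℂ`, `T (b, s) = (fun q => b(q, s q), fun i => s (inl i), b m₀)`.
`T (b₀, 0) = (0, 0, 1)`.  `T` is analytic (so `ContDiff`) near `(b₀,0)`, and
`DT(b₀,0)(h, ṡ) = (h(q,0) + b₀'(q,0) ṡ q, ṡ ∘ inl, h m₀)` is injective by (a),(b), hence bijective (dimension count).
Let `(b p, σ p) := T⁻¹ (0, p, 1)` (`ContDiffAt.toOpenPartialHomeomorph`, `ContDiffAt.to_localInverse`),
differentiable for `p` near `0`.  `Ψ j p := ∑ q, H j q (σ p q)`.  Differentiating `b p (q, σ p q) = 0` in direction `ṗ`: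
`ḃ(q, σ q) + b'(q, σ q) σ̇ q = 0`, so `DΨ j = ∑ q, φ j q (σ q) σ̇ q = - ∑ q, ḃ(q,σ q) / b'(q,σ q) * φ j q (σ q) = 0` by (c).
Hence `Ψ = Ψ 0 = 0` on a ball.  Given small `s` with `∑ q, H j q (s q) = 0`, put `p := s ∘ inl`; then
`σ p ∘ inl = p` and `∑_{q ∈ J} H j q (s q) = ∑_{q ∈ J} H j q (σ p q)`; by (d) the map
`(J → ℂ) → (J → ℂ)`, `u ↦ (∑_{q ∈ J} H j q (u q))_j` has invertible derivative at `0`, so is injective near `0`
(`HasStrictFDerivAt` ⇒ local injectivity).  So `s = σ p` and `b p` works (`b p m₀ = 1`). -/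

set_option autoImplicit false

open scoped BigOperators Topology
open Filter

namespace Fermat.Agent.S27

namespace LemmaM

theorem exists_local_inverse {E G : Type*} [NormedAddCommGroup E] [NormedSpace ℂ E] [CompleteSpace E]
    [NormedAddCommGroup G] [NormedSpace ℂ G]
    (T : E → G) (a : E) (T' : E ≃L[ℂ] G) (hT : ContDiffAt ℂ 1 T a)
    (hT' : HasFDerivAt T (T' : E →L[ℂ] G) a) :
    ∃ g : G → E, g (T a) = a ∧ ContinuousAt g (T a) ∧ (∀ᶠ y in 𝓝 (T a), T (g y) = y) ∧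
      (∀ᶠ y in 𝓝 (T a), DifferentiableAt ℂ g y) := by
  have hs := hT.hasStrictFDerivAt' hT' one_ne_zero
  refine ⟨hT.localInverse hT' one_ne_zero, hT.localInverse_apply_image hT' one_ne_zero,
    hs.localInverse_continuousAt, hs.eventually_right_inverse, ?_⟩
  have h1 := hT.to_localInverse hT' one_ne_zero
  have h2 := h1.eventually (by simp)
  exact h2.mono fun y hy => hy.differentiableAt (by simp)

theorem exists_equiv_of_injective {E G : Type*} [NormedAddCommGroup E] [NormedSpace ℂ E]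
    [FiniteDimensional ℂ E] [NormedAddCommGroup G] [NormedSpace ℂ G] [FiniteDimensional ℂ G]
    (L : E →L[ℂ] G) (hinj : Function.Injective L)
    (hdim : Module.finrank ℂ E = Module.finrank ℂ G) :
    ∃ e : E ≃L[ℂ] G, (e : E →L[ℂ] G) = L := by
  let e0 : E ≃ₗ[ℂ] G := LinearMap.linearEquivOfInjective (L : E →ₗ[ℂ] G) hinj hdim
  refine ⟨e0.toContinuousLinearEquiv, ?_⟩
  ext x
  simp [e0]

theorem exists_injOn {J : Type*} [Fintype J] (H φ : J → J → ℂ → ℂ) (r : ℝ) (hr : 0 < r)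
    (hφ : ∀ j q, ContinuousAt (φ j q) 0)
    (hH : ∀ j q, ∀ s ∈ Metric.ball (0 : ℂ) r, HasDerivAt (H j q) (φ j q s) s)
    (hd : ∀ c : J → ℂ, (∀ j, ∑ q, φ j q 0 * c q = 0) → c = 0) :
    ∃ δ > 0, ∀ u v : J → ℂ, (∀ q, ‖u q‖ < δ) → (∀ q, ‖v q‖ < δ) →
      (∀ j, ∑ q, H j q (u q) = ∑ q, H j q (v q)) → u = v := by
  classical
  let U : (J → ℂ) → (J → ℂ) := fun u j => ∑ q, H j q (u q)
  let U' : (J → ℂ) →L[ℂ] (J → ℂ) :=
    ContinuousLinearMap.pi fun j => ∑ q, φ j q 0 • (ContinuousLinearMap.proj q : (J → ℂ) →L[ℂ] ℂ)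
  have hU'app : ∀ c j, U' c j = ∑ q, φ j q 0 * c q := by
    intro c j
    simp [U', sum_apply]
  have hinj : Function.Injective U' := by
    rw [injective_iff_map_eq_zero]
    intro c hc
    exact hd c fun j => by rw [← hU'app, hc]; rfl
  obtain ⟨e, he⟩ := exists_equiv_of_injective U' hinj rfl
  have hstrict : HasStrictFDerivAt U (e : (J → ℂ) →L[ℂ] (J → ℂ)) 0 := by
    rw [he]
    refine hasStrictFDerivAt_pi.2 fun j => ?_
    refine HasStrictFDerivAt.fun_sum fun q _ => ?_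
    have h1 : HasStrictDerivAt (H j q) (φ j q 0) ((0 : J → ℂ) q) := by
      refine hasStrictDerivAt_of_hasDerivAt_of_continuousAt ?_ (hφ j q)
      filter_upwards [Metric.ball_mem_nhds (0 : ℂ) hr] with s hs using hH j q s hs
    exact h1.comp_hasStrictFDerivAt (0 : J → ℂ)
      (ContinuousLinearMap.proj q : (J → ℂ) →L[ℂ] ℂ).hasStrictFDerivAt
  have hsrc : (hstrict.toOpenPartialHomeomorph U).source ∈ 𝓝 (0 : J → ℂ) :=
    (hstrict.toOpenPartialHomeomorph U).open_source.mem_nhds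
      hstrict.mem_toOpenPartialHomeomorph_source
  obtain ⟨δ, hδ, hball⟩ := Metric.mem_nhds_iff.1 hsrc
  refine ⟨δ, hδ, fun u v hu hv huv => ?_⟩
  have hu' : u ∈ (hstrict.toOpenPartialHomeomorph U).source :=
    hball (by rw [mem_ball_zero_iff, pi_norm_lt_iff hδ]; exact hu)
  have hv' : v ∈ (hstrict.toOpenPartialHomeomorph U).source :=
    hball (by rw [mem_ball_zero_iff, pi_norm_lt_iff hδ]; exact hv)
  exact (hstrict.toOpenPartialHomeomorph U).injOn hu' hv' (funext huv)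

variable {Q M : Type*} [Fintype Q] [Fintype M]

/-- `b(q,z) = ∑ m, b m * β q m z` -/
def ev (β : Q → M → ℂ → ℂ) (q : Q) (b : M → ℂ) (z : ℂ) : ℂ := ∑ m, b m * β q m z

/-- `b'(q,z) = ∑ m, b m * deriv (β q m) z` -/
noncomputable def ev' (β : Q → M → ℂ → ℂ) (q : Q) (b : M → ℂ) (z : ℂ) : ℂ :=
  ∑ m, b m * deriv (β q m) z

/-- the derivative of `(b,s) ↦ b(q, s q)` -/
noncomputable def dEv (β : Q → M → ℂ → ℂ) (q : Q) (x : (M → ℂ) × (Q → ℂ)) :
    ((M → ℂ) × (Q → ℂ)) →L[ℂ] ℂ :=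
  ∑ m, (x.1 m • (deriv (β q m) (x.2 q) •
      ((ContinuousLinearMap.proj q).comp (ContinuousLinearMap.snd ℂ (M → ℂ) (Q → ℂ)))) +
    β q m (x.2 q) • ((ContinuousLinearMap.proj m).comp (ContinuousLinearMap.fst ℂ (M → ℂ) (Q → ℂ))))

theorem dEv_apply (β : Q → M → ℂ → ℂ) (q : Q) (x v : (M → ℂ) × (Q → ℂ)) :
    dEv β q x v = ev β q v.1 (x.2 q) + ev' β q x.1 (x.2 q) * v.2 q := by
  simp only [dEv, ev, ev', sum_apply, add_apply,
    smul_apply, ContinuousLinearMap.comp_apply, ContinuousLinearMap.proj_apply,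
    ContinuousLinearMap.coe_fst', ContinuousLinearMap.coe_snd', smul_eq_mul,
    Finset.sum_add_distrib, Finset.sum_mul]
  rw [add_comm]
  congr 1
  · exact Finset.sum_congr rfl fun m _ => by ring
  · exact Finset.sum_congr rfl fun m _ => by ring

theorem hasFDerivAt_ev (β : Q → M → ℂ → ℂ) (q : Q) (x : (M → ℂ) × (Q → ℂ))
    (hβ : ∀ m, DifferentiableAt ℂ (β q m) (x.2 q)) :
    HasFDerivAt (fun y : (M → ℂ) × (Q → ℂ) => ev β q y.1 (y.2 q)) (dEv β q x) x := by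
  unfold ev dEv
  refine HasFDerivAt.fun_sum fun m _ => ?_
  have h1 : HasFDerivAt (fun y : (M → ℂ) × (Q → ℂ) => y.1 m)
      ((ContinuousLinearMap.proj m).comp (ContinuousLinearMap.fst ℂ (M → ℂ) (Q → ℂ))) x :=
    ((ContinuousLinearMap.proj m).comp (ContinuousLinearMap.fst ℂ (M → ℂ) (Q → ℂ))).hasFDerivAt
  have h2 : HasFDerivAt (fun y : (M → ℂ) × (Q → ℂ) => y.2 q)
      ((ContinuousLinearMap.proj q).comp (ContinuousLinearMap.snd ℂ (M → ℂ) (Q → ℂ))) x :=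
    ((ContinuousLinearMap.proj q).comp (ContinuousLinearMap.snd ℂ (M → ℂ) (Q → ℂ))).hasFDerivAt
  have h3 : HasFDerivAt (fun y : (M → ℂ) × (Q → ℂ) => β q m (y.2 q))
      (deriv (β q m) (x.2 q) •
        ((ContinuousLinearMap.proj q).comp (ContinuousLinearMap.snd ℂ (M → ℂ) (Q → ℂ)))) x :=
    (hβ m).hasDerivAt.comp_hasFDerivAt x h2
  exact h1.mul h3

theorem contDiffAt_ev (β : Q → M → ℂ → ℂ) (q : Q) (x : (M → ℂ) × (Q → ℂ))
    (hβ : ∀ m, AnalyticAt ℂ (β q m) (x.2 q)) :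
    ContDiffAt ℂ 1 (fun y : (M → ℂ) × (Q → ℂ) => ev β q y.1 (y.2 q)) x := by
  unfold ev
  refine ContDiffAt.sum fun m _ => ?_
  have h1 : ContDiffAt ℂ 1 (fun y : (M → ℂ) × (Q → ℂ) => y.1 m) x :=
    ((ContinuousLinearMap.proj m).comp (ContinuousLinearMap.fst ℂ (M → ℂ) (Q → ℂ))).contDiff.contDiffAt
  have h2 : ContDiffAt ℂ 1 (fun y : (M → ℂ) × (Q → ℂ) => y.2 q) x :=
    ((ContinuousLinearMap.proj q).comp (ContinuousLinearMap.snd ℂ (M → ℂ) (Q → ℂ))).contDiff.contDiffAt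
  have h3 : ContDiffAt ℂ 1 (fun y : (M → ℂ) × (Q → ℂ) => β q m (y.2 q)) x :=
    ContDiffAt.comp x (hβ m).contDiffAt h2
  exact h1.mul h3

theorem continuousAt_ev' (β : Q → M → ℂ → ℂ) (q : Q) (x : (M → ℂ) × (Q → ℂ))
    (hβ : ∀ m, AnalyticAt ℂ (β q m) (x.2 q)) :
    ContinuousAt (fun y : (M → ℂ) × (Q → ℂ) => ev' β q y.1 (y.2 q)) x := by
  unfold ev'
  refine tendsto_finsetSum _ fun m _ => ?_
  have h1 : ContinuousAt (fun y : (M → ℂ) × (Q → ℂ) => y.1 m) x := by fun_prop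
  have h2 : ContinuousAt (fun y : (M → ℂ) × (Q → ℂ) => y.2 q) x := by fun_prop
  have h3 : ContinuousAt (fun y : (M → ℂ) × (Q → ℂ) => deriv (β q m) (y.2 q)) x :=
    ContinuousAt.comp (f := fun y : (M → ℂ) × (Q → ℂ) => y.2 q) (hβ m).deriv.continuousAt h2
  exact h1.mul h3


variable {I J : Type*} [Fintype I] [Fintype J]

/-- the map `T (b, s) = (b(q, s q), s ∘ inl, b m₀)` -/
def T (β : I ⊕ J → M → ℂ → ℂ) (m₀ : M) (x : (M → ℂ) × (I ⊕ J → ℂ)) :
    (I ⊕ J → ℂ) × (I → ℂ) × ℂ :=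
  (fun q => ev β q x.1 (x.2 q), fun i => x.2 (Sum.inl i), x.1 m₀)

/-- the derivative of `T` -/
noncomputable def dT (β : I ⊕ J → M → ℂ → ℂ) (m₀ : M) (x : (M → ℂ) × (I ⊕ J → ℂ)) :
    ((M → ℂ) × (I ⊕ J → ℂ)) →L[ℂ] (I ⊕ J → ℂ) × (I → ℂ) × ℂ :=
  (ContinuousLinearMap.pi fun q => dEv β q x).prod
    ((ContinuousLinearMap.pi fun i => (ContinuousLinearMap.proj (Sum.inl i)).comp
        (ContinuousLinearMap.snd ℂ (M → ℂ) (I ⊕ J → ℂ))).prod
      ((ContinuousLinearMap.proj m₀).comp (ContinuousLinearMap.fst ℂ (M → ℂ) (I ⊕ J → ℂ))))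

theorem dT_apply (β : I ⊕ J → M → ℂ → ℂ) (m₀ : M) (x v : (M → ℂ) × (I ⊕ J → ℂ)) :
    dT β m₀ x v = (fun q => ev β q v.1 (x.2 q) + ev' β q x.1 (x.2 q) * v.2 q,
      fun i => v.2 (Sum.inl i), v.1 m₀) := by
  refine Prod.ext (funext fun q => ?_) (Prod.ext (funext fun i => ?_) ?_)
  · exact dEv_apply β q x v
  · rfl
  · rfl

theorem hasFDerivAt_T (β : I ⊕ J → M → ℂ → ℂ) (m₀ : M) (x : (M → ℂ) × (I ⊕ J → ℂ))
    (hβ : ∀ q m, DifferentiableAt ℂ (β q m) (x.2 q)) :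
    HasFDerivAt (T β m₀) (dT β m₀ x) x := by
  unfold T dT
  refine HasFDerivAt.prodMk (hasFDerivAt_pi.2 fun q => hasFDerivAt_ev β q x (hβ q))
    (HasFDerivAt.prodMk (hasFDerivAt_pi.2 fun i => ?_) ?_)
  · exact ((ContinuousLinearMap.proj (Sum.inl i)).comp
        (ContinuousLinearMap.snd ℂ (M → ℂ) (I ⊕ J → ℂ))).hasFDerivAt
  · exact ((ContinuousLinearMap.proj m₀).comp
        (ContinuousLinearMap.fst ℂ (M → ℂ) (I ⊕ J → ℂ))).hasFDerivAt

theorem contDiffAt_T (β : I ⊕ J → M → ℂ → ℂ) (m₀ : M) (x : (M → ℂ) × (I ⊕ J → ℂ))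
    (hβ : ∀ q m, AnalyticAt ℂ (β q m) (x.2 q)) :
    ContDiffAt ℂ 1 (T β m₀) x := by
  unfold T
  refine ContDiffAt.prodMk (contDiffAt_pi.2 fun q => contDiffAt_ev β q x (hβ q))
    (ContDiffAt.prodMk (contDiffAt_pi.2 fun i => ?_) ?_)
  · exact ((ContinuousLinearMap.proj (Sum.inl i)).comp
        (ContinuousLinearMap.snd ℂ (M → ℂ) (I ⊕ J → ℂ))).contDiff.contDiffAt
  · exact ((ContinuousLinearMap.proj m₀).comp
        (ContinuousLinearMap.fst ℂ (M → ℂ) (I ⊕ J → ℂ))).contDiff.contDiffAt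

theorem dT_injective (β : I ⊕ J → M → ℂ → ℂ) (m₀ : M) (b₀ : M → ℂ) (hm₀ : b₀ m₀ ≠ 0)
    (ha' : ∀ q, ev' β q b₀ 0 ≠ 0)
    (hb : ∀ h : M → ℂ, (∀ i : I, ev β (Sum.inl i) h 0 = 0) → ∃ c : ℂ, h = c • b₀) :
    Function.Injective (dT β m₀ (b₀, 0)) := by
  rw [injective_iff_map_eq_zero]
  rintro ⟨h, s⟩ hv
  rw [dT_apply] at hv
  simp only [Prod.mk_eq_zero, Pi.zero_apply] at hv
  obtain ⟨h1, h2, h3⟩ := hv
  have h2' : ∀ i, s (Sum.inl i) = 0 := fun i => congrFun h2 i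
  have h1' : ∀ q, ev β q h 0 + ev' β q b₀ 0 * s q = 0 := fun q => congrFun h1 q
  obtain ⟨c, rfl⟩ := hb h fun i => by simpa [h2' i] using h1' (Sum.inl i)
  have hc : c = 0 := by
    simpa [hm₀] using h3
  subst hc
  have hs : s = 0 := by
    funext q
    have := h1' q
    simp only [zero_smul, ev, Pi.zero_apply, zero_mul, Finset.sum_const_zero, zero_add,
      mul_eq_zero] at this
    exact this.resolve_left (ha' q)
  simp [hs]


/-- the affine embedding `p ↦ (0, p, c)` -/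
def iota (c : ℂ) (p : I → ℂ) : (I ⊕ J → ℂ) × (I → ℂ) × ℂ := (0, p, c)

/-- its derivative -/
noncomputable def dIota : (I → ℂ) →L[ℂ] (I ⊕ J → ℂ) × (I → ℂ) × ℂ :=
  (0 : (I → ℂ) →L[ℂ] (I ⊕ J → ℂ)).prod
    ((ContinuousLinearMap.id ℂ (I → ℂ)).prod (0 : (I → ℂ) →L[ℂ] ℂ))

theorem hasFDerivAt_iota (c : ℂ) (p : I → ℂ) :
    HasFDerivAt (iota (J := J) c) (dIota (I := I) (J := J)) p := by
  unfold iota dIota
  exact HasFDerivAt.prodMk (hasFDerivAt_const _ _)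
    (HasFDerivAt.prodMk (hasFDerivAt_id _) (hasFDerivAt_const _ _))

theorem dIota_apply_fst (v : I → ℂ) : (dIota (I := I) (J := J) v).1 = 0 := rfl

/-- The key computation: along the implicit solution the sum of the primitives has derivative 0. -/
theorem hasFDerivAt_Psi (β : I ⊕ J → M → ℂ → ℂ) (m₀ : M) (c₀ : ℂ)
    (g : (I ⊕ J → ℂ) × (I → ℂ) × ℂ → (M → ℂ) × (I ⊕ J → ℂ)) (p : I → ℂ)
    (φ H : I ⊕ J → ℂ → ℂ)
    (hβ : ∀ q m, DifferentiableAt ℂ (β q m) ((g (iota c₀ p)).2 q))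
    (hH : ∀ q, HasDerivAt (H q) (φ q ((g (iota c₀ p)).2 q)) ((g (iota c₀ p)).2 q))
    (hgd : DifferentiableAt ℂ g (iota c₀ p))
    (hgr : ∀ᶠ z in 𝓝 (iota c₀ p), T β m₀ (g z) = z)
    (hne : ∀ q, ev' β q (g (iota c₀ p)).1 ((g (iota c₀ p)).2 q) ≠ 0)
    (hc : ∀ h : M → ℂ, ∑ q, ev β q h ((g (iota c₀ p)).2 q) /
      ev' β q (g (iota c₀ p)).1 ((g (iota c₀ p)).2 q) * φ q ((g (iota c₀ p)).2 q) = 0) :
    HasFDerivAt (fun p' : I → ℂ => ∑ q, H q ((g (iota c₀ p')).2 q))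
      (0 : (I → ℂ) →L[ℂ] ℂ) p := by
  set y := iota (J := J) c₀ p with hy
  set x := g y with hx
  set g' := fderiv ℂ g y with hg'
  have hg : HasFDerivAt g g' y := hgd.hasFDerivAt
  have hγ : HasFDerivAt (fun p' : I → ℂ => g (iota c₀ p')) (g'.comp dIota) p :=
    hg.comp p (hasFDerivAt_iota c₀ p)
  have hσ : ∀ q, HasFDerivAt (fun p' : I → ℂ => (g (iota c₀ p')).2 q)
      (((ContinuousLinearMap.proj q).comp
        (ContinuousLinearMap.snd ℂ (M → ℂ) (I ⊕ J → ℂ))).comp (g'.comp dIota)) p := fun q =>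
    ((ContinuousLinearMap.proj q).comp
      (ContinuousLinearMap.snd ℂ (M → ℂ) (I ⊕ J → ℂ))).hasFDerivAt.comp p hγ
  have hsum : HasFDerivAt (fun p' : I → ℂ => ∑ q, H q ((g (iota c₀ p')).2 q))
      (∑ q, φ q (x.2 q) • (((ContinuousLinearMap.proj q).comp
        (ContinuousLinearMap.snd ℂ (M → ℂ) (I ⊕ J → ℂ))).comp (g'.comp dIota))) p :=
    HasFDerivAt.fun_sum fun q _ => (hH q).comp_hasFDerivAt p (hσ q)
  convert hsum using 1
  symm
  ext v
  set w := g' (dIota v) with hw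
  -- the linearised equation
  have hlin : ∀ q, ev β q w.1 (x.2 q) + ev' β q x.1 (x.2 q) * w.2 q = 0 := by
    intro q
    have h1 : HasFDerivAt (fun z => ev β q (g z).1 ((g z).2 q)) ((dEv β q x).comp g') y :=
      (hasFDerivAt_ev β q x (hβ q)).comp y hg
    have h2 : HasFDerivAt (fun z : (I ⊕ J → ℂ) × (I → ℂ) × ℂ => z.1 q)
        ((ContinuousLinearMap.proj q).comp
          (ContinuousLinearMap.fst ℂ (I ⊕ J → ℂ) ((I → ℂ) × ℂ))) y :=
      ((ContinuousLinearMap.proj q).comp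
          (ContinuousLinearMap.fst ℂ (I ⊕ J → ℂ) ((I → ℂ) × ℂ))).hasFDerivAt
    have h3 : (fun z => ev β q (g z).1 ((g z).2 q)) =ᶠ[𝓝 y]
        (fun z : (I ⊕ J → ℂ) × (I → ℂ) × ℂ => z.1 q) := by
      filter_upwards [hgr] with z hz
      exact congrFun (congrArg Prod.fst hz) q
    have h4 := (h2.congr_of_eventuallyEq h3).unique h1
    have h5 := congrArg (fun L => L (dIota v)) h4
    simp only [ContinuousLinearMap.comp_apply, ContinuousLinearMap.proj_apply,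
      ContinuousLinearMap.coe_fst', dIota_apply_fst, Pi.zero_apply, dEv_apply] at h5
    exact h5.symm
  have hval : ∀ q, φ q (x.2 q) * w.2 q = - (ev β q w.1 (x.2 q) / ev' β q x.1 (x.2 q) * φ q (x.2 q)) := by
    intro q
    have h := hlin q
    have hn := hne q
    have : w.2 q = - (ev β q w.1 (x.2 q) / ev' β q x.1 (x.2 q)) := by
      field_simp
      linear_combination h
    rw [this]; ring
  simp only [sum_apply, smul_apply, ContinuousLinearMap.comp_apply,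
    ContinuousLinearMap.proj_apply, ContinuousLinearMap.coe_snd', smul_eq_mul,
    zero_apply]
  rw [Finset.sum_congr rfl fun q _ => hval q, Finset.sum_neg_distrib, hc w.1, neg_zero]

end LemmaM

open LemmaM in
theorem lemmaM {I J M : Type*} [Fintype I] [Fintype J] [Fintype M] [DecidableEq I] [DecidableEq J]
    [DecidableEq M]
    (hcard : Fintype.card M = Fintype.card I + 1)
    (r : ℝ) (hr : 0 < r)
    (β : I ⊕ J → M → ℂ → ℂ) (hβ : ∀ q m, AnalyticOnNhd ℂ (β q m) (Metric.ball 0 r))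
    (φ H : J → I ⊕ J → ℂ → ℂ) (hφ : ∀ j q, AnalyticOnNhd ℂ (φ j q) (Metric.ball 0 r))
    (hH : ∀ j q, ∀ s ∈ Metric.ball (0 : ℂ) r, HasDerivAt (H j q) (φ j q s) s)
    (hH0 : ∀ j q, H j q 0 = 0)
    (b₀ : M → ℂ)
    (ha : ∀ q, ∑ m, b₀ m * β q m 0 = 0)
    (ha' : ∀ q, ∑ m, b₀ m * deriv (β q m) 0 ≠ 0)
    (hb : ∀ h : M → ℂ, (∀ i : I, ∑ m, h m * β (Sum.inl i) m 0 = 0) → ∃ c : ℂ, h = c • b₀)
    (hc : ∀ s : I ⊕ J → ℂ, (∀ q, ‖s q‖ < r) → ∀ b h : M → ℂ,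
      (∀ q, ∑ m, b m * β q m (s q) = 0) → (∀ q, ∑ m, b m * deriv (β q m) (s q) ≠ 0) →
      ∀ j, ∑ q, (∑ m, h m * β q m (s q)) / (∑ m, b m * deriv (β q m) (s q)) * φ j q (s q) = 0)
    (hd : ∀ c : J → ℂ, (∀ j, ∑ q : J, φ j (Sum.inr q) 0 * c q = 0) → c = 0) :
    ∃ ε > 0, ∀ s : I ⊕ J → ℂ, (∀ q, ‖s q‖ < ε) → (∀ j, ∑ q, H j q (s q) = 0) →
      ∃ b : M → ℂ, b ≠ 0 ∧ ∀ q, ∑ m, b m * β q m (s q) = 0 := by
  classical
  have ha1 : ∀ q, ev β q b₀ 0 = 0 := ha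
  have ha2 : ∀ q, ev' β q b₀ 0 ≠ 0 := ha'
  have hb1 : ∀ h : M → ℂ, (∀ i : I, ev β (Sum.inl i) h 0 = 0) → ∃ c : ℂ, h = c • b₀ := hb
  -- `b₀ ≠ 0`
  obtain ⟨m₀, hm₀⟩ : ∃ m₀, b₀ m₀ ≠ 0 := by
    let Λ : (M → ℂ) →ₗ[ℂ] (I → ℂ) :=
      LinearMap.pi fun i => ∑ m, β (Sum.inl i) m 0 • (LinearMap.proj m : (M → ℂ) →ₗ[ℂ] ℂ)
    have hΛ : ∀ h i, Λ h i = ev β (Sum.inl i) h 0 := by
      intro h i
      simp only [Λ, ev, LinearMap.pi_apply, LinearMap.sum_apply, LinearMap.smul_apply,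
        LinearMap.proj_apply, smul_eq_mul]
      exact Finset.sum_congr rfl fun m _ => mul_comm _ _
    have hker : LinearMap.ker Λ ≠ ⊥ := by
      apply LinearMap.ker_ne_bot_of_finrank_lt
      rw [Module.finrank_fintype_fun_eq_card, Module.finrank_fintype_fun_eq_card, hcard]
      exact Nat.lt_succ_self _
    obtain ⟨h, hh, hh0⟩ := (Submodule.ne_bot_iff _).1 hker
    obtain ⟨c, rfl⟩ := hb1 h fun i => by
      rw [← hΛ, LinearMap.mem_ker.1 hh]; rfl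
    by_contra hcon
    push Not at hcon
    exact hh0 (by funext m; simp [hcon m])
  set x₀ : (M → ℂ) × (I ⊕ J → ℂ) := (b₀, 0) with hx₀
  have h0mem : (0 : ℂ) ∈ Metric.ball (0 : ℂ) r := Metric.mem_ball_self hr
  have hAn : ∀ q m, AnalyticAt ℂ (β q m) (x₀.2 q) := fun q m => hβ q m 0 h0mem
  have hdim : Module.finrank ℂ ((M → ℂ) × (I ⊕ J → ℂ)) =
      Module.finrank ℂ ((I ⊕ J → ℂ) × (I → ℂ) × ℂ) := by
    simp only [Module.finrank_prod, Module.finrank_fintype_fun_eq_card, Module.finrank_self, hcard]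
    ring
  obtain ⟨e, he⟩ := exists_equiv_of_injective (dT β m₀ x₀)
    (dT_injective β m₀ b₀ hm₀ ha2 hb1) hdim
  have hT' : HasFDerivAt (T β m₀) (e : _ →L[ℂ] _) x₀ := by
    rw [he]
    exact hasFDerivAt_T β m₀ x₀ fun q m => (hAn q m).differentiableAt
  obtain ⟨g, hg0, hgc, hgr, hgd⟩ :=
    exists_local_inverse (T β m₀) x₀ e (contDiffAt_T β m₀ x₀ hAn) hT'
  have hTx₀ : T β m₀ x₀ = iota (b₀ m₀) 0 := by
    refine Prod.ext (funext fun q => ?_) rfl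
    exact ha1 q
  rw [hTx₀] at hg0 hgc hgr hgd
  -- local injectivity in the last block
  obtain ⟨δ, hδ, hinj⟩ := exists_injOn (fun j q => H j (Sum.inr q)) (fun j q => φ j (Sum.inr q)) r hr
    (fun j q => (hφ j (Sum.inr q) 0 h0mem).continuousAt)
    (fun j q s hs => hH j (Sum.inr q) s hs) hd
  -- good neighbourhood of `x₀`
  have hρ : 0 < min r δ := lt_min hr hδ
  have hx1 : ∀ᶠ x in 𝓝 x₀, ∀ q, ‖x.2 q‖ < min r δ := by
    rw [Filter.eventually_all]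
    intro q
    have hcont : ContinuousAt (fun x : (M → ℂ) × (I ⊕ J → ℂ) => ‖x.2 q‖) x₀ := by fun_prop
    exact hcont.eventually_lt continuousAt_const (by simpa [hx₀] using hρ)
  have hx2 : ∀ᶠ x in 𝓝 x₀, ∀ q, ev' β q x.1 (x.2 q) ≠ 0 := by
    rw [Filter.eventually_all]
    intro q
    exact (continuousAt_ev' β q x₀ (hAn q)).eventually_ne (ha2 q)
  have hgt : Tendsto g (𝓝 (iota (b₀ m₀) 0)) (𝓝 x₀) := by
    have := hgc.tendsto
    rwa [hg0] at this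
  have hy : ∀ᶠ y in 𝓝 (iota (J := J) (b₀ m₀) (0 : I → ℂ)),
      (∀ᶠ z in 𝓝 y, T β m₀ (g z) = z) ∧ DifferentiableAt ℂ g y ∧
        (∀ q, ‖(g y).2 q‖ < min r δ) ∧ ∀ q, ev' β q (g y).1 ((g y).2 q) ≠ 0 :=
    hgr.eventually_nhds.and (hgd.and ((hgt.eventually hx1).and (hgt.eventually hx2)))
  have hιc : ContinuousAt (iota (I := I) (J := J) (b₀ m₀)) 0 :=
    (hasFDerivAt_iota (b₀ m₀) 0).continuousAt
  obtain ⟨ε₁, hε₁, hball⟩ := Metric.eventually_nhds_iff_ball.1 (hιc.eventually hy)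
  -- `Ψ = 0` on the ball
  have hΨ : ∀ j, ∀ p ∈ Metric.ball (0 : I → ℂ) ε₁,
      HasFDerivAt (fun p' : I → ℂ => ∑ q, H j q ((g (iota (b₀ m₀) p')).2 q))
        (0 : (I → ℂ) →L[ℂ] ℂ) p := by
    intro j p hp
    obtain ⟨h1, h2, h3, h4⟩ := hball p hp
    have hmem : ∀ q, (g (iota (b₀ m₀) p)).2 q ∈ Metric.ball (0 : ℂ) r := fun q => by
      rw [mem_ball_zero_iff]; exact (h3 q).trans_le (min_le_left _ _)
    have hTg : T β m₀ (g (iota (b₀ m₀) p)) = iota (b₀ m₀) p := h1.self_of_nhds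
    refine hasFDerivAt_Psi β m₀ (b₀ m₀) g p (φ j) (H j)
      (fun q m => (hβ q m _ (hmem q)).differentiableAt) (fun q => hH j q _ (hmem q)) h2 h1 h4 ?_
    intro h
    exact hc _ (fun q => (h3 q).trans_le (min_le_left _ _)) _ h
      (fun q => congrFun (congrArg Prod.fst hTg) q) h4 j
  have hΨ0 : ∀ j, ∀ p ∈ Metric.ball (0 : I → ℂ) ε₁,
      ∑ q, H j q ((g (iota (b₀ m₀) p)).2 q) = 0 := by
    intro j p hp
    have hconst := IsOpen.is_const_of_fderiv_eq_zero (𝕜 := ℂ) Metric.isOpen_ball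
      (convex_ball (0 : I → ℂ) ε₁).isPreconnected
      (f := fun p' : I → ℂ => ∑ q, H j q ((g (iota (b₀ m₀) p')).2 q))
      (fun p' hp' => (hΨ j p' hp').differentiableAt.differentiableWithinAt)
      (fun p' hp' => (hΨ j p' hp').fderiv) hp (Metric.mem_ball_self hε₁)
    rw [hconst, hg0]
    simp [hx₀, hH0]
  refine ⟨min ε₁ δ, lt_min hε₁ hδ, fun s hs hsum => ?_⟩
  set p : I → ℂ := fun i => s (Sum.inl i) with hp
  have hpmem : p ∈ Metric.ball (0 : I → ℂ) ε₁ := by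
    rw [mem_ball_zero_iff, pi_norm_lt_iff hε₁]
    exact fun i => (hs _).trans_le (min_le_left _ _)
  obtain ⟨h1, -, h3, -⟩ := hball p hpmem
  have hTg : T β m₀ (g (iota (b₀ m₀) p)) = iota (b₀ m₀) p := h1.self_of_nhds
  set x := g (iota (b₀ m₀) p) with hx
  have hxl : ∀ i, x.2 (Sum.inl i) = s (Sum.inl i) := fun i =>
    congrFun (congrArg (fun z => z.2.1) hTg) i
  have hxm : x.1 m₀ = b₀ m₀ := congrArg (fun z => z.2.2) hTg
  have hxe : ∀ q, ev β q x.1 (x.2 q) = 0 := fun q => congrFun (congrArg Prod.fst hTg) q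
  have hxr : (fun q : J => x.2 (Sum.inr q)) = fun q : J => s (Sum.inr q) := by
    refine hinj _ _ (fun q => (h3 _).trans_le (min_le_right _ _))
      (fun q => (hs _).trans_le (min_le_right _ _)) fun j => ?_
    have e1 := hΨ0 j p hpmem
    have e2 := hsum j
    rw [Fintype.sum_sum_type] at e1 e2
    simp only [← hx, hxl] at e1
    exact add_left_cancel (e1.trans e2.symm)
  have hxs : x.2 = s := by
    funext q
    rcases q with i | q
    · exact hxl i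
    · exact congrFun hxr q
  refine ⟨x.1, fun h0 => hm₀ (by rw [← hxm, h0]; rfl), fun q => ?_⟩
  have := hxe q
  rw [hxs] at this
  exact this

end Fermat.Agent.S27
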