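import Mathlib

/-! # S27 / Gen / AnalyticRoot  (TASK S27/G4)

Holomorphic implicit function theorem for a polynomial equation `G(τ, y) = 0`.
`G : ℂ[X][Y]`, `Polynomial.evalEval τ y G` is the value at `X = τ`, `Y = y`.

Proof: apply the inverse function theorem (`ContDiffAt.toOpenPartialHomeomorph`,
`ContDiffAt.to_localInverse`, over `𝕜 = ℂ`) to `(τ, y) ↦ (τ, G(τ,y))` on `ℂ × ℂ`;
the local inverse is `ContDiffAt ℂ 1`, hence differentiable in a neighbourhood, hence
`y τ := (inverse (τ, 0)).2` is holomorphic near `0` (`DifferentiableOn.analyticOnNhd`). -/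

set_option autoImplicit false

namespace Fermat.Agent.S27

open Polynomial

namespace AnalyticRoot

open scoped ContDiff

theorem analyticAt_evalEval (G : Polynomial (Polynomial ℂ)) (u : ℂ × ℂ) :
    AnalyticAt ℂ (fun p : ℂ × ℂ => G.evalEval p.1 p.2) u := by
  induction G using Polynomial.induction_on' with
  | add p q hp hq =>
    simp only [evalEval_add]
    exact hp.add hq
  | monomial n a =>
    have e : (fun p : ℂ × ℂ => (monomial n a).evalEval p.1 p.2) =
        fun p : ℂ × ℂ => aeval p.1 a * p.2 ^ n := by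
      funext p
      rw [← C_mul_X_pow_eq_monomial, evalEval_mul, evalEval_C, evalEval_pow, evalEval_X]
      rfl
    rw [e]
    exact (analyticAt_fst.aeval_polynomial a).mul (analyticAt_snd.pow n)

theorem hasDerivAt_evalEval_snd (G : Polynomial (Polynomial ℂ)) (x y₀ : ℂ) :
    HasDerivAt (fun y => G.evalEval x y) ((derivative G).evalEval x y₀) y₀ := by
  have e : (fun y => G.evalEval x y) = fun y => (G.map (evalRingHom x)).eval y := by
    funext y
    rw [map_evalRingHom_eval]
  rw [e, ← map_evalRingHom_eval, ← derivative_map]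
  exact (G.map (evalRingHom x)).hasDerivAt y₀

end AnalyticRoot

open AnalyticRoot
open scoped ContDiff Topology

theorem exists_analytic_root (G : Polynomial (Polynomial ℂ)) (y₀ : ℂ)
    (h0 : G.evalEval 0 y₀ = 0) (h1 : (derivative G).evalEval 0 y₀ ≠ 0) :
    ∃ r > 0, ∃ y : ℂ → ℂ, AnalyticOnNhd ℂ y (Metric.ball 0 r) ∧ y 0 = y₀ ∧
      ∀ τ ∈ Metric.ball (0 : ℂ) r, G.evalEval τ (y τ) = 0 := by
  set f : ℂ × ℂ → ℂ := fun p => G.evalEval p.1 p.2 with hf
  set u : ℂ × ℂ := (0, y₀) with hu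
  have han : AnalyticAt ℂ f u := analyticAt_evalEval G u
  have cdf : ContDiffAt ℂ ω f u := han.contDiffAt
  have pn : (ω : ℕ∞ω) ≠ 0 := by simp
  set b := (derivative G).evalEval 0 y₀ with hb
  have hb1 : (fderiv ℂ f u ∘L ContinuousLinearMap.inr ℂ ℂ ℂ) 1 = b := by
    have hd : HasFDerivAt f (fderiv ℂ f u) u := han.differentiableAt.hasFDerivAt
    have hin : HasFDerivAt (fun y : ℂ => ((0 : ℂ), y)) (ContinuousLinearMap.inr ℂ ℂ ℂ) y₀ :=
      hasFDerivAt_prodMk_right 0 y₀
    have hc : HasFDerivAt (fun y : ℂ => f (0, y))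
        (fderiv ℂ f u ∘L ContinuousLinearMap.inr ℂ ℂ ℂ) y₀ := hd.comp y₀ hin
    have h2 := hc.hasDerivAt
    exact h2.unique (hasDerivAt_evalEval_snd G 0 y₀)
  have if₂ : (fderiv ℂ f u ∘L ContinuousLinearMap.inr ℂ ℂ ℂ).IsInvertible := by
    refine ⟨ContinuousLinearEquiv.unitsEquivAut ℂ (Units.mk0 b h1), ?_⟩
    apply ContinuousLinearMap.ext_ring
    rw [hb1]
    simp
  set ψ := cdf.implicitFunction pn if₂ with hψ
  have hψan : AnalyticAt ℂ ψ 0 := (cdf.contDiffAt_implicitFunction pn if₂).analyticAt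
  have hψ0 : ψ 0 = y₀ := cdf.implicitFunction_apply_self pn if₂
  have hev : ∀ᶠ x in 𝓝 (0 : ℂ), f (x, ψ x) = f u := cdf.eventually_apply_implicitFunction pn if₂
  obtain ⟨r, hr, hball⟩ := Metric.eventually_nhds_iff_ball.mp (hψan.eventually_analyticAt.and hev)
  refine ⟨r, hr, ψ, fun τ hτ => (hball τ hτ).1, hψ0, fun τ hτ => ?_⟩
  have := (hball τ hτ).2
  rw [show f u = 0 from h0] at this
  exact this

end Fermat.Agent.S27
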