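import Mathlib

/-! # S27 / Gen / LocalHom  (TASK S27/G2)

A map defined near `0` of a real normed space which is additive near `0` extends to a homomorphism.
Proof: `φ v := N • e (v / N)` for any `N > ‖v‖ / ε`; independent of `N` because
`e (v / N) = M • e (v / (N M))` by additivity. -/

set_option autoImplicit false

namespace Fermat.Agent.S27

namespace LocalHom

variable {E : Type*} [NormedAddCommGroup E] [NormedSpace ℝ E]
  {G : Type*} [AddCommGroup G] (e : E → G) (ε : ℝ)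

omit [NormedSpace ℝ E] in
theorem e_zero (hε : 0 < ε)
    (hadd : ∀ v w : E, ‖v‖ < ε → ‖w‖ < ε → ‖v + w‖ < ε → e (v + w) = e v + e w) : e 0 = 0 := by
  have h := hadd 0 0 (by simpa using hε) (by simpa using hε) (by simpa using hε)
  rw [add_zero] at h
  exact (add_eq_left.mp h.symm)

theorem e_nsmul (hε : 0 < ε)
    (hadd : ∀ v w : E, ‖v‖ < ε → ‖w‖ < ε → ‖v + w‖ < ε → e (v + w) = e v + e w)
    (M : ℕ) (u : E) (hu : (M : ℝ) * ‖u‖ < ε) (hu1 : ‖u‖ < ε) :
    e ((M : ℝ) • u) = M • e u := by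
  have key : ∀ k : ℕ, k ≤ M → e ((k : ℝ) • u) = k • e u := by
    intro k
    induction k with
    | zero => intro _; simp [e_zero e ε hε hadd]
    | succ k ih =>
      intro hk
      have hk' : k ≤ M := Nat.le_of_succ_le hk
      have hn : ∀ j : ℕ, j ≤ M → ‖(j : ℝ) • u‖ < ε := by
        intro j hj
        rw [norm_smul, Real.norm_natCast]
        refine lt_of_le_of_lt ?_ hu
        exact mul_le_mul_of_nonneg_right (by exact_mod_cast hj) (norm_nonneg _)
      have e1 : ((k + 1 : ℕ) : ℝ) • u = (k : ℝ) • u + u := by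
        push_cast
        rw [add_smul, one_smul]
      rw [e1, hadd _ _ (hn k hk') hu1 (by rw [← e1]; exact hn _ hk), ih hk', succ_nsmul]
  exact key M le_rfl

/-- the candidate value -/
noncomputable def g (v : E) (N : ℕ) : G := N • e ((N : ℝ)⁻¹ • v)

theorem g_mul (hε : 0 < ε)
    (hadd : ∀ v w : E, ‖v‖ < ε → ‖w‖ < ε → ‖v + w‖ < ε → e (v + w) = e v + e w)
    (v : E) (N N' : ℕ) (hN : 0 < N) (hN' : 0 < N') (h : ‖v‖ < N * ε) :
    g e v N = g e v (N * N') := by
  unfold g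
  have hNr : (0 : ℝ) < N := by exact_mod_cast hN
  have hNr' : (0 : ℝ) < N' := by exact_mod_cast hN'
  have h1 : ((N : ℝ)⁻¹ • v) = (N' : ℝ) • (((N * N' : ℕ) : ℝ)⁻¹ • v) := by
    rw [smul_smul]
    congr 1
    push_cast
    field_simp
  have hnorm : ‖((N * N' : ℕ) : ℝ)⁻¹ • v‖ = ‖v‖ / (N * N') := by
    rw [norm_smul, norm_inv, Real.norm_natCast]
    push_cast
    rw [div_eq_inv_mul]
  have h2 : (N' : ℝ) * ‖((N * N' : ℕ) : ℝ)⁻¹ • v‖ < ε := by
    rw [hnorm]
    have : (N' : ℝ) * (‖v‖ / (N * N')) = ‖v‖ / N := by field_simp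
    rw [this, div_lt_iff₀ hNr]
    linarith
  have h3 : ‖((N * N' : ℕ) : ℝ)⁻¹ • v‖ < ε := by
    refine lt_of_le_of_lt ?_ h2
    have : (1 : ℝ) ≤ N' := by exact_mod_cast hN'
    nlinarith [norm_nonneg (((N * N' : ℕ) : ℝ)⁻¹ • v)]
  rw [h1, e_nsmul e ε hε hadd N' _ h2 h3, smul_smul]

theorem g_indep (hε : 0 < ε)
    (hadd : ∀ v w : E, ‖v‖ < ε → ‖w‖ < ε → ‖v + w‖ < ε → e (v + w) = e v + e w)
    (v : E) (N N' : ℕ) (hN : 0 < N) (hN' : 0 < N') (h : ‖v‖ < N * ε) (h' : ‖v‖ < N' * ε) :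
    g e v N = g e v N' := by
  rw [g_mul e ε hε hadd v N N' hN hN' h, g_mul e ε hε hadd v N' N hN' hN h', mul_comm]

/-- a good denominator -/
noncomputable def den (v : E) : ℕ := ⌊‖v‖ / ε⌋₊ + 1

omit [NormedSpace ℝ E] in
theorem den_pos (v : E) : 0 < den ε v := Nat.succ_pos _

omit [NormedSpace ℝ E] in
theorem lt_den (hε : 0 < ε) (v : E) : ‖v‖ < den ε v * ε := by
  unfold den
  have := Nat.lt_floor_add_one (‖v‖ / ε)
  rw [div_lt_iff₀ hε] at this
  push_cast
  exact this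

end LocalHom

open LocalHom

theorem exists_addMonoidHom_of_local {E : Type*} [NormedAddCommGroup E] [NormedSpace ℝ E]
    {G : Type*} [AddCommGroup G] (e : E → G) (ε : ℝ) (hε : 0 < ε)
    (hadd : ∀ v w : E, ‖v‖ < ε → ‖w‖ < ε → ‖v + w‖ < ε → e (v + w) = e v + e w) :
    ∃ φ : E →+ G, ∀ v, ‖v‖ < ε → φ v = e v := by
  have hval : ∀ (v : E) (N : ℕ), 0 < N → ‖v‖ < N * ε → g e v (den ε v) = g e v N :=
    fun v N hN h => g_indep e ε hε hadd v _ N (den_pos ε v) hN (lt_den ε hε v) h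
  refine ⟨AddMonoidHom.mk' (fun v => g e v (den ε v)) ?_, ?_⟩
  · intro v w
    set N := den ε v + den ε w with hN
    have hNpos : 0 < N := Nat.add_pos_left (den_pos ε v) _
    have hNr : (0 : ℝ) < N := by exact_mod_cast hNpos
    have hv := lt_den ε hε v
    have hw := lt_den ε hε w
    have hdv : (0 : ℝ) ≤ den ε v * ε := by positivity
    have hdw : (0 : ℝ) ≤ den ε w * ε := by positivity
    have hNe : (N : ℝ) * ε = den ε v * ε + den ε w * ε := by
      rw [hN]; push_cast; ring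
    have h1 : ‖v‖ < N * ε := by rw [hNe]; linarith
    have h2 : ‖w‖ < N * ε := by rw [hNe]; linarith
    have h3 : ‖v + w‖ < N * ε := by
      rw [hNe]; exact lt_of_le_of_lt (norm_add_le v w) (by linarith)
    rw [hval v N hNpos h1, hval w N hNpos h2, hval (v + w) N hNpos h3]
    unfold g
    have hs : ∀ x : E, ‖x‖ < N * ε → ‖(N : ℝ)⁻¹ • x‖ < ε := by
      intro x hx
      rw [norm_smul, norm_inv, Real.norm_natCast, inv_mul_lt_iff₀ hNr]
      exact hx
    rw [smul_add, hadd _ _ (hs v h1) (hs w h2) (by rw [← smul_add]; exact hs _ h3), smul_add]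
  · intro v hv
    show g e v (den ε v) = e v
    rw [hval v 1 one_pos (by simpa using hv)]
    simp [g]

end Fermat.Agent.S27
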