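import Mathlib

/-! # S27 / Gen / EFold  (TASK S27/G3)

A holomorphic function with a zero of order `e` at `0` takes every small nonzero value at (at least) `e`
distinct points close to `0`.

Proof: `h τ = τ ^ e * u τ`, `u 0 ≠ 0` (`AnalyticAt.analyticOrderAt_eq_natCast`).  Choose `c` with
`c ^ e = u 0`; `w τ := c * exp (log (u τ / u 0) / e)` is analytic at `0`, `w ^ e = u`.
`s τ := τ * w τ` has `s 0 = 0`, `s' 0 = c ≠ 0`, so it is a local homeomorphism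
(`HasStrictDerivAt.toOpenPartialHomeomorph` / `HasStrictDerivAt.localInverse`);
for small `w ≠ 0` take the `e` distinct `e`-th roots `μ` of `w` and `τ := s⁻¹ μ`. -/

set_option autoImplicit false

namespace Fermat.Agent.S27

namespace EFold

open Filter Topology

/-- an analytic `e`-th root of a non-vanishing analytic function -/
theorem exists_analytic_root_of_ne_zero {u : ℂ → ℂ} (hu : AnalyticAt ℂ u 0) (hu0 : u 0 ≠ 0)
    {e : ℕ} (he0 : 0 < e) :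
    ∃ w : ℂ → ℂ, AnalyticAt ℂ w 0 ∧ w 0 ≠ 0 ∧ ∀ᶠ τ in 𝓝 (0 : ℂ), w τ ^ e = u τ := by
  obtain ⟨c, hc⟩ := IsAlgClosed.exists_pow_nat_eq (u 0) he0
  have hc0 : c ≠ 0 := by
    rintro rfl
    rw [zero_pow he0.ne'] at hc
    exact hu0 hc.symm
  have he : (e : ℂ) ≠ 0 := by exact_mod_cast he0.ne'
  refine ⟨fun τ => c * Complex.exp (Complex.log (u τ / u 0) / e), ?_, ?_, ?_⟩
  · have h1 : AnalyticAt ℂ (fun τ => u τ / u 0) 0 := hu.div analyticAt_const hu0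
    have h2 : AnalyticAt ℂ (fun τ => Complex.log (u τ / u 0)) 0 := by
      refine h1.clog ?_
      rw [div_self hu0]
      exact Complex.one_mem_slitPlane
    have h3 : AnalyticAt ℂ (fun τ => Complex.log (u τ / u 0) / e) 0 :=
      h2.div analyticAt_const he
    exact analyticAt_const.mul h3.cexp
  · exact mul_ne_zero hc0 (Complex.exp_ne_zero _)
  · have hne : ∀ᶠ τ in 𝓝 (0 : ℂ), u τ ≠ 0 := hu.continuousAt.eventually_ne hu0
    filter_upwards [hne] with τ hτ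
    rw [mul_pow, hc, ← Complex.exp_nat_mul, mul_div_cancel₀ _ he,
      Complex.exp_log (div_ne_zero hτ hu0), mul_div_cancel₀ _ hu0]

end EFold

open EFold Filter Topology

theorem exists_finset_card_eq_order {h : ℂ → ℂ} {e : ℕ} (hh : AnalyticAt ℂ h 0)
    (he : analyticOrderAt h 0 = (e : ℕ∞)) (he0 : 0 < e) (ρ : ℝ) (hρ : 0 < ρ) :
    ∃ ε > 0, ∀ w : ℂ, w ≠ 0 → ‖w‖ < ε →
      ∃ S : Finset ℂ, S.card = e ∧ ∀ τ ∈ S, ‖τ‖ < ρ ∧ h τ = w := by
  classical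
  obtain ⟨u, hu, hu0, hhu⟩ := hh.analyticOrderAt_eq_natCast.mp he
  obtain ⟨w, hw, hw0, hwu⟩ := exists_analytic_root_of_ne_zero hu hu0 he0
  -- the local coordinate
  set s : ℂ → ℂ := fun τ => τ * w τ with hs
  have hsan : AnalyticAt ℂ s 0 := analyticAt_id.mul hw
  have hsd : HasStrictDerivAt s (w 0) 0 := by
    have h1 := hsan.hasStrictDerivAt
    have h2 : deriv s 0 = w 0 := by
      have h3 : HasDerivAt s (1 * w 0 + 0 * deriv w 0) 0 :=
        (hasDerivAt_id (0 : ℂ)).mul hw.differentiableAt.hasDerivAt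
      simpa using h3.deriv
    rwa [h2] at h1
  have hmap : map s (𝓝 0) = 𝓝 (s 0) := hsd.map_nhds_eq hw0
  have hs0 : s 0 = 0 := by simp [hs]
  rw [hs0] at hmap
  -- the good neighbourhood
  have hU : ∀ᶠ τ in 𝓝 (0 : ℂ), ‖τ‖ < ρ ∧ h τ = s τ ^ e := by
    have h1 : ∀ᶠ τ in 𝓝 (0 : ℂ), ‖τ‖ < ρ := by
      have := Metric.ball_mem_nhds (0 : ℂ) hρ
      filter_upwards [this] with τ hτ
      simpa using hτ
    filter_upwards [h1, hhu, hwu] with τ h1 h2 h3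
    refine ⟨h1, ?_⟩
    rw [h2, hs]
    simp only [sub_zero, smul_eq_mul, mul_pow, h3]
  have hV : s '' {τ | ‖τ‖ < ρ ∧ h τ = s τ ^ e} ∈ 𝓝 (0 : ℂ) := by
    rw [← hmap]
    exact image_mem_map hU
  obtain ⟨δ, hδ, hball⟩ := Metric.mem_nhds_iff.mp hV
  refine ⟨δ ^ e, pow_pos hδ e, fun w₀ hw₀ hlt => ?_⟩
  obtain ⟨μ₀, hμ₀⟩ := IsAlgClosed.exists_pow_nat_eq w₀ he0
  have hμ₀0 : μ₀ ≠ 0 := by
    rintro rfl
    rw [zero_pow he0.ne'] at hμ₀
    exact hw₀ hμ₀.symm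
  have hζ := Complex.isPrimitiveRoot_exp e he0.ne'
  set ζ := Complex.exp (2 * Real.pi * Complex.I / e) with hζdef
  have hpow : ∀ k : ℕ, (μ₀ * ζ ^ k) ^ e = w₀ := by
    intro k
    rw [mul_pow, hμ₀, ← pow_mul, mul_comm k e, pow_mul, hζ.pow_eq_one, one_pow, mul_one]
  have hnorm : ∀ k : ℕ, ‖μ₀ * ζ ^ k‖ < δ := by
    intro k
    have h1 : ‖μ₀ * ζ ^ k‖ ^ e < δ ^ e := by
      rw [← norm_pow, hpow]; exact hlt
    exact lt_of_pow_lt_pow_left₀ e hδ.le h1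
  have hex : ∀ k : ℕ, ∃ τ, (‖τ‖ < ρ ∧ h τ = s τ ^ e) ∧ s τ = μ₀ * ζ ^ k := by
    intro k
    have : μ₀ * ζ ^ k ∈ Metric.ball (0 : ℂ) δ := by simpa using hnorm k
    exact hball this
  choose t ht using hex
  refine ⟨(Finset.range e).image t, ?_, ?_⟩
  · rw [Finset.card_image_of_injOn, Finset.card_range]
    intro i hi j hj hij
    have hi' : i < e := Finset.mem_range.mp hi
    have hj' : j < e := Finset.mem_range.mp hj
    have h1 : μ₀ * ζ ^ i = μ₀ * ζ ^ j := by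
      rw [← (ht i).2, ← (ht j).2, hij]
    exact hζ.pow_inj hi' hj' (mul_left_cancel₀ hμ₀0 h1)
  · intro τ hτ
    obtain ⟨k, -, rfl⟩ := Finset.mem_image.mp hτ
    refine ⟨(ht k).1.1, ?_⟩
    rw [(ht k).1.2, (ht k).2, hpow]

end Fermat.Agent.S27
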